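import Fermat.Agent.S44.ResDeg.Main
import Fermat.Agent.S44.Defs

/-!
# S44 / ResDeg / RedTo : the interface statement `S44.ResDeg M p`

* `redRel_of_redTo` : for `f ∈ FF N`, `RedTo A f φ` (numerator and denominator ARBITRARY integral series) implies
  `RedRel N A f φ` (numerator and denominator in `FF N`);  `redTo_of_redRel` is the trivial converse;
* `mem_resF_of_redTo` : `f ∈ FF N`, `RedTo A f φ` ⟹ `φ ∈ resF N A`;
* **`resDeg`** : `S44.ResDeg M p`;  `mem_resF_of_redUp`, `mem_resF_of_redUp_mul` : the same with `RedUp`.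
-/

set_option autoImplicit false

open AlgebraicCurve ModularCurve

namespace Fermat.Agent.S44.ResDeg

open Fermat.Agent.ES (Qb FF)
open Fermat.Agent.S37.Mod (kA resF io rd IsI RedRel)
open Fermat.Agent.SS (RedTo RedUp cst cstk)

theorem redTo_of_redRel {N : ℕ} {A : ValuationSubring Qb} {f : LaurentSeries Qb}
    {φ : LaurentSeries (kA A)} (h : RedRel N A f φ) : RedTo A f φ := by
  obtain ⟨a, b, -, -, hb, hf, hu⟩ := h
  exact ⟨a, b, hb, hf, hu.symm⟩

theorem redRel_of_redTo {N : ℕ} [NeZero N] {A : ValuationSubring Qb} (f : FF N)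
    {φ : LaurentSeries (kA A)} (h : RedTo A (f : LaurentSeries Qb) φ) :
    RedRel N A (f : LaurentSeries Qb) φ := by
  by_cases hf : f = 0
  · have h0 : RedTo A (f : LaurentSeries Qb) 0 := by
      rw [hf]
      exact redTo_of_redRel (N := N) RedRel.zero
    rw [h.unique h0, hf]
    exact RedRel.zero
  have hf' : (f : LaurentSeries Qb) ≠ 0 := fun h => hf (Subtype.ext h)
  obtain ⟨c, u, hc, hu, hcu⟩ := Fermat.Agent.S37.Mod.exists_redRel_scale (A := A) f hf
  have hcL : algebraMap Qb (LaurentSeries Qb) c ≠ 0 := (map_ne_zero _).2 hc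
  rcases A.mem_or_inv_mem c with hcA | hcA
  · -- `c ∈ A`: then `c̄ φ = u ≠ 0`, so `c` is a unit
    have h1 : RedTo A (cst c * (f : LaurentSeries Qb))
        (cstk A (Fermat.Agent.ES.resA A ⟨c, hcA⟩) * φ) :=
      (RedTo.cst_of_mem (⟨c, hcA⟩ : A)).mul h
    have h2 : cstk A (Fermat.Agent.ES.resA A ⟨c, hcA⟩) * φ = u :=
      h1.unique (redTo_of_redRel hcu)
    have h3 : Fermat.Agent.ES.resA A ⟨c, hcA⟩ ≠ 0 := by
      intro h0
      rw [h0, cstk, map_zero, zero_mul] at h2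
      exact hu h2.symm
    have h4 : RedRel N A (algebraMap Qb (LaurentSeries Qb) c)⁻¹
        (algebraMap (kA A) (LaurentSeries (kA A)) (IsLocalRing.residue A ⟨c, hcA⟩))⁻¹ :=
      (RedRel.const (M := N) (⟨c, hcA⟩ : A)).inv ((map_ne_zero _).2 h3)
    have h5 := h4.mul hcu
    rw [inv_mul_cancel_left₀ hcL] at h5
    rwa [← h.unique (redTo_of_redRel h5)] at h5
  · have h1 := (RedRel.const (M := N) (⟨c⁻¹, hcA⟩ : A)).mul hcu
    rw [show ((⟨c⁻¹, hcA⟩ : A) : Qb) = c⁻¹ from rfl, map_inv₀, inv_mul_cancel_left₀ hcL] at h1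
    rwa [← h.unique (redTo_of_redRel h1)] at h1

theorem mem_resF_of_redTo {N : ℕ} [NeZero N] {A : ValuationSubring Qb} (f : FF N)
    {φ : LaurentSeries (kA A)} (h : RedTo A (f : LaurentSeries Qb) φ) : φ ∈ resF N A :=
  ⟨_, redRel_of_redTo f h⟩

/-- **The interface statement `S44.ResDeg`.** -/
theorem resDeg (M p : ℕ) [NeZero M] [NeZero p] (hp : p.Prime) (hpM : ¬ p ∣ M) :
    Fermat.Agent.S44.ResDeg M p := by
  intro A hA f φ h
  exact resF_mul_le M p hp hpM A hA (mem_resF_of_redTo f h)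

theorem mem_resF_of_redUp {N : ℕ} [NeZero N] {A : ValuationSubring Qb} (f : FF N)
    {φ : LaurentSeries (kA A)} (h : RedUp A (f : LaurentSeries Qb) φ) : φ ∈ resF N A := by
  obtain ⟨c, -, h⟩ := h
  exact mem_resF_of_redTo (algebraMap Qb (FF N) c * f) h

/-- `S44.ResDeg`, up to constants. -/
theorem mem_resF_of_redUp_mul (M p : ℕ) [NeZero M] [NeZero p] (hp : p.Prime) (hpM : ¬ p ∣ M)
    (A : ValuationSubring Qb) (hA : A.LiesOverPrime p) (f : FF (M * p))
    {φ : LaurentSeries (kA A)} (h : RedUp A (f : LaurentSeries Qb) φ) : φ ∈ resF M A :=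
  resF_mul_le M p hp hpM A hA (mem_resF_of_redUp f h)

end Fermat.Agent.S44.ResDeg
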