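import Fermat.Agent.S44.ResDeg.Tower
import Fermat.Agent.S37.Mod.Inst

/-!
# S44 / ResDeg : the Gauss valuation `v_∞` of `FF (M p)` has residue degree one over `FF M`   (`A ∣ p`, `p ∤ M`)

* `full_le_resF`   : `F_k(M) = k(j̄(q^d) : d ∣ M) ≤ resF M A`        (any `A`, any `M`);
* `rd_mem_full`    : `a ∈ A((q)) ∩ FF (M p)`  ⟹  `ā ∈ F_k(M)`;
* `resF_mul_le_full` : `resF (M p) A ≤ F_k(M)`;
* **`resF_mul_le`** : `resF (M p) A ≤ resF M A`;
* `resF_le_mul`, `resF_mul_eq` : the other inclusion, `resF (M p) A = resF M A`;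
* `resF_mul_eq_full` : `resF (M p) A = F_k(M)`, `resF_eq_full : resF M A = F_k(M)`.

Proof of `rd_mem_full`: descent to a number field `K₀` (`SS.GM2.exists_field`, `Crux.exists_A0_series`, `SS.GM2.exists_wK`), then
`mem_full_of_redK_tower`.
-/

set_option autoImplicit false

open AlgebraicCurve ModularCurve

namespace Fermat.Agent.S44.ResDeg

open Fermat.Agent.ES (Qb FF)
open Fermat.Agent.S37.Mod (kA resF io rd IsI RedRel)
open Fermat.Agent.SS (exists_isAL)
open Fermat.Agent.SS.GM2 (exists_field exists_wK finite_residueField RedK)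
open Fermat.Agent.Crux (A0 A0_ne_top exists_A0_series residue_A0_natCast
  isDiscreteValuationRing_of_numberField)

theorem bar_eq_fullC (M : ℕ) [NeZero M] :
    modularFunctionFieldBar M = modularFunctionFieldFullC Qb M :=
  Fermat.Agent.S17.IsFFAux.laurentBaseChange_eq_fullC _ M

/-- `j(q^d)`, `d ∣ M`, is an integral element of `FF M`. -/
theorem isI_jd (M : ℕ) [NeZero M] (A : ValuationSubring Qb) {d : ℕ} [NeZero d] (hd : d ∣ M) :
    IsI M A (qExpand A d (jqModC A)) := by
  rw [IsI, coeffMap_qExpand, coeffMap_jqModC, bar_eq_fullC]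
  exact jqModCd_mem_full Qb M hd

/-- `F_k(M) ≤ resF M A`. -/
theorem full_le_resF (M : ℕ) [NeZero M] (A : ValuationSubring Qb) :
    modularFunctionFieldFullC (kA A) M ≤ resF M A := by
  rw [modularFunctionFieldFullC, IntermediateField.adjoin_le_iff]
  rintro x ⟨d, hd0, hd, rfl⟩
  have h := RedRel.of_isI (isI_jd M A hd)
  rw [show rd A (qExpand A d (jqModC A)) = qExpand (kA A) d (jqModC (kA A)) by
    rw [coeffMap_qExpand, coeffMap_jqModC]] at h
  exact ⟨_, h⟩

/-- the inclusion `A ∩ K₀ → A`. -/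
noncomputable def incl (K₀ : Type*) [Field K₀] [Algebra K₀ Qb] (A : ValuationSubring Qb) : A0 K₀ A →+* A where
  toFun x := ⟨algebraMap K₀ Qb (x : K₀), x.2⟩
  map_one' := Subtype.ext (map_one _)
  map_mul' _ _ := Subtype.ext (map_mul _ _ _)
  map_zero' := Subtype.ext (map_zero _)
  map_add' _ _ := Subtype.ext (map_add _ _ _)

instance (K₀ : Type*) [Field K₀] [Algebra K₀ Qb] (A : ValuationSubring Qb) :
    IsLocalHom (incl K₀ A) where
  map_nonunit x hx := by
    obtain ⟨v, hv⟩ := hx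
    have h1 : algebraMap K₀ Qb (x : K₀) * (((v⁻¹ : Aˣ) : A) : Qb) = 1 := by
      have h2 : ((v : A) : Qb) = algebraMap K₀ Qb (x : K₀) := by rw [hv]; rfl
      rw [← h2]
      exact_mod_cast congrArg Subtype.val v.mul_inv
    have hx0 : (x : K₀) ≠ 0 := by
      intro h0
      rw [h0, map_zero, zero_mul] at h1
      exact zero_ne_one h1
    have h3 : algebraMap K₀ Qb (x : K₀)⁻¹ = (((v⁻¹ : Aˣ) : A) : Qb) := by
      rw [map_inv₀]
      exact inv_eq_of_mul_eq_one_right h1
    have hmem : (x : K₀)⁻¹ ∈ A0 K₀ A := by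
      show algebraMap K₀ Qb (x : K₀)⁻¹ ∈ A
      rw [h3]
      exact Subtype.property _
    exact IsUnit.of_mul_eq_one (⟨(x : K₀)⁻¹, hmem⟩ : A0 K₀ A)
      (Subtype.ext (mul_inv_cancel₀ hx0))

variable (M p : ℕ) [NeZero M] [NeZero p]

/-- the reduction of an integral element of `FF (M p)` lies in `F_k(M)`. -/
theorem rd_mem_full (hp : p.Prime) (hpM : ¬ p ∣ M) (A : ValuationSubring Qb)
    (hA : A.LiesOverPrime p) (a : LaurentSeries A) (ha : IsI (M * p) A a) :
    rd A a ∈ modularFunctionFieldFullC (kA A) M := by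
  classical
  obtain ⟨w, hw⟩ := exists_isAL M p hp hpM
  obtain ⟨K₀, hfd, -, -, hS⟩ := exists_field (M * p) ∅ {(⟨io A a, ha⟩ : FF (M * p))}
  have : NumberField K₀ := { to_charZero := inferInstance, to_finiteDimensional := hfd }
  obtain ⟨u, hu, hua⟩ := hS _ (Finset.mem_singleton_self _)
  have hdvr : IsDiscreteValuationRing (A0 K₀ A) :=
    isDiscreteValuationRing_of_numberField _ (A0_ne_top K₀ A hp hA)
  have hfin : Finite (IsLocalRing.ResidueField (A0 K₀ A)) :=
    finite_residueField _ (A0_ne_top K₀ A hp hA)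
  obtain ⟨wK, hwK, -⟩ := exists_wK M p hp w hw K₀
  obtain ⟨z, hz, hz'⟩ := exists_A0_series K₀ A u a hua
  have h1 : RedK (IsLocalRing.residue (A0 K₀ A)) u (coeffMap (IsLocalRing.residue (A0 K₀ A)) z) := by
    rw [← hz]
    exact RedK.of_series z
  have h2 := mem_full_of_redK_tower M p hp hpM (IsLocalRing.residue (A0 K₀ A))
    IsLocalRing.residue_surjective (residue_A0_natCast K₀ A hA) wK hwK u hu _ h1
  have h3 := Fermat.Agent.S28.coeffMap_mem_full
    (IsLocalRing.ResidueField.map (incl K₀ A)) M h2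
  have h4 : coeffMap (IsLocalRing.ResidueField.map (incl K₀ A))
      (coeffMap (IsLocalRing.residue (A0 K₀ A)) z) = rd A a := by
    ext n
    rw [coeffMap_coeff, coeffMap_coeff, coeffMap_coeff, IsLocalRing.ResidueField.map_residue]
    congr 1
    exact Subtype.ext (hz' n)
  rwa [h4] at h3

/-- `resF (M p) A ≤ F_k(M)`. -/
theorem resF_mul_le_full (hp : p.Prime) (hpM : ¬ p ∣ M) (A : ValuationSubring Qb)
    (hA : A.LiesOverPrime p) : resF (M * p) A ≤ modularFunctionFieldFullC (kA A) M := by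
  rintro u ⟨f, a, b, ha, hb, hb0, -, hu⟩
  have h : u = rd A a * (rd A b)⁻¹ := by rw [← hu, mul_inv_cancel_right₀ hb0]
  rw [h]
  exact mul_mem (rd_mem_full M p hp hpM A hA a ha) (inv_mem (rd_mem_full M p hp hpM A hA b hb))

/-- **Residue degree one**: `resF (M p) A ≤ resF M A`. -/
theorem resF_mul_le (hp : p.Prime) (hpM : ¬ p ∣ M) (A : ValuationSubring Qb)
    (hA : A.LiesOverPrime p) : resF (M * p) A ≤ resF M A :=
  (resF_mul_le_full M p hp hpM A hA).trans (full_le_resF M A)

/-- monotonicity in the level. -/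
theorem resF_mono {M N : ℕ} [NeZero M] [NeZero N] (h : M ∣ N) (A : ValuationSubring Qb) :
    resF M A ≤ resF N A := by
  have hle : modularFunctionFieldBar M ≤ modularFunctionFieldBar N := by
    rw [bar_eq_fullC, bar_eq_fullC]
    exact full_degeneracyC_le Qb h
  rintro u ⟨f, a, b, ha, hb, hb0, hf, hu⟩
  exact ⟨f, a, b, hle ha, hle hb, hb0, hf, hu⟩

theorem resF_mul_eq (hp : p.Prime) (hpM : ¬ p ∣ M) (A : ValuationSubring Qb)
    (hA : A.LiesOverPrime p) : resF (M * p) A = resF M A :=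
  le_antisymm (resF_mul_le M p hp hpM A hA) (resF_mono (dvd_mul_right M p) A)

theorem resF_eq_full (hp : p.Prime) (hpM : ¬ p ∣ M) (A : ValuationSubring Qb)
    (hA : A.LiesOverPrime p) : resF M A = modularFunctionFieldFullC (kA A) M :=
  le_antisymm ((resF_mono (dvd_mul_right M p) A).trans (resF_mul_le_full M p hp hpM A hA))
    (full_le_resF M A)

theorem resF_mul_eq_full (hp : p.Prime) (hpM : ¬ p ∣ M) (A : ValuationSubring Qb)
    (hA : A.LiesOverPrime p) : resF (M * p) A = modularFunctionFieldFullC (kA A) M :=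
  (resF_mul_eq M p hp hpM A hA).trans (resF_eq_full M p hp hpM A hA)

end Fermat.Agent.S44.ResDeg
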