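import Fermat.Agent.SS.GM2.Main

/-!
# S44 / ResDeg / KLevel : residue degree one of `v_∞` on `F_K(M ℓ)`, over a DVR `(A, K, k)`

`Setup` + `QL` (`SS/GM2`) : if `f ∈ F = F_K(M ℓ)` is integral for the Gauss valuation `v_∞` (`RedK r (Φ f) a`), then its reduction
`a` lies in `F_k(M)`.

`QL.mem` needs integrality for BOTH Gauss valuations `v_∞`, `v_∞ ∘ w`.  We multiply `f` by a power of the lift `ε` of the
idempotent `(1, 0)` (`Setup.exists_eps`): `w ε ∈ π V`, and `π^n w f ∈ V` for `n` large.
-/

set_option autoImplicit false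
set_option linter.unusedSectionVars false

open Polynomial ModularCurve

namespace Fermat.Agent.S44.ResDeg

open Fermat.Agent.SS.GM2
open Fermat.Agent.S28 (V J evAt)
open Fermat.Agent.Crux.GM (castS)

section formal

variable {A K k : Type*} [CommRing A] [IsDomain A] [Field K] [Algebra A K] [IsFractionRing A K]
  [Field k] {r : A →+* k}

/-- every element of `F_K(N)` is a quotient of series with coefficients in `A`. -/
theorem exists_frac_of_mem_full (N : ℕ) [NeZero N] {z : LaurentSeries K}
    (hz : z ∈ modularFunctionFieldFullC K N) :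
    ∃ g h : LaurentSeries A, h ≠ 0 ∧
      z * coeffMap (algebraMap A K) h = coeffMap (algebraMap A K) g := by
  have hinj : Function.Injective (coeffMap (algebraMap A K)) :=
    Fermat.Agent.S28.Build.coeffMap_injective _ (IsFractionRing.injective A K)
  rw [modularFunctionFieldFullC] at hz
  induction hz using IntermediateField.adjoin_induction with
  | mem y hy =>
    obtain ⟨d, hd, hdN, rfl⟩ := hy
    refine ⟨qExpand A d (jqModC A), 1, one_ne_zero, ?_⟩
    rw [coeffMap_qExpand, coeffMap_jqModC, map_one, mul_one]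
  | algebraMap c =>
    obtain ⟨a, b, hb, rfl⟩ := IsFractionRing.div_surjective (A := A) c
    have hb0 : b ≠ 0 := nonZeroDivisors.ne_zero hb
    have hbK : algebraMap A K b ≠ 0 := by
      rw [Ne, map_eq_zero_iff _ (IsFractionRing.injective A K)]
      exact hb0
    refine ⟨HahnSeries.C a, HahnSeries.C b, HahnSeries.C_ne_zero hb0, ?_⟩
    rw [Fermat.Agent.S28.Build.coeffMap_C, Fermat.Agent.S28.Build.coeffMap_C,
      Fermat.Agent.S28.C_eq_algebraMap, Fermat.Agent.S28.C_eq_algebraMap, ← map_mul,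
      div_mul_cancel₀ _ hbK]
  | add x y _ _ hx hy =>
    obtain ⟨g, h, hne, e⟩ := hx
    obtain ⟨g', h', hne', e'⟩ := hy
    refine ⟨g * h' + g' * h, h * h', mul_ne_zero hne hne', ?_⟩
    rw [map_add, map_mul, map_mul, map_mul, ← e, ← e']
    ring
  | inv x _ hx =>
    obtain ⟨g, h, hne, e⟩ := hx
    by_cases hx0 : x = 0
    · exact ⟨0, 1, one_ne_zero, by rw [hx0, inv_zero, zero_mul, map_zero]⟩
    · refine ⟨h, g, ?_, ?_⟩
      · rintro rfl
        rw [map_zero] at e
        rcases mul_eq_zero.mp e with h1 | h1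
        · exact hx0 h1
        · exact hne (hinj (by rw [h1, map_zero]))
      · rw [← e, inv_mul_cancel_left₀ hx0]
  | mul x y _ _ hx hy =>
    obtain ⟨g, h, hne, e⟩ := hx
    obtain ⟨g', h', hne', e'⟩ := hy
    refine ⟨g * g', h * h', mul_ne_zero hne hne', ?_⟩
    rw [map_mul, map_mul, ← e, ← e']
    ring

variable [IsDiscreteValuationRing A] {π : A}

/-- `π^n z` is integral for `n` large. -/
theorem exists_pow_mul_redK (hπ : Irreducible π) (hr : Function.Surjective r)
    {z : LaurentSeries K} (hz : ∃ g h : LaurentSeries A, h ≠ 0 ∧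
      z * coeffMap (algebraMap A K) h = coeffMap (algebraMap A K) g) :
    ∃ (n : ℕ) (a : LaurentSeries k),
      RedK r (coeffMap (algebraMap A K) (HahnSeries.C π) ^ n * z) a := by
  obtain ⟨g, h, hne, e⟩ := hz
  obtain ⟨j, h', rfl, hh'⟩ := exists_pow_mul hπ hr h hne
  refine ⟨j, coeffMap r g / coeffMap r h', g, h', hh', ?_, (div_mul_cancel₀ _ hh').symm⟩
  rw [← e, map_mul, map_pow]
  ring

/-- an element of the maximal ideal of the Gauss valuation is divisible by `π`. -/
theorem exists_redK_of_redK_zero (hπ : Irreducible π) (hr : Function.Surjective r)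
    {y : LaurentSeries K} (hy : RedK r y 0) :
    ∃ (y' : LaurentSeries K) (a : LaurentSeries k),
      y = coeffMap (algebraMap A K) (HahnSeries.C π) * y' ∧ RedK r y' a := by
  obtain ⟨g, h, hh, e, hg⟩ := hy
  rw [zero_mul] at hg
  obtain ⟨g1, rfl⟩ := Fermat.Agent.Crux.GM.exists_eq_C_mul_of_red_eq_zero r hr hπ hg
  have hinj : Function.Injective (coeffMap (algebraMap A K)) :=
    Fermat.Agent.S28.Build.coeffMap_injective _ (IsFractionRing.injective A K)
  have hh0 : coeffMap (algebraMap A K) h ≠ 0 := by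
    intro h0
    have : h = 0 := hinj (by rw [h0, map_zero])
    exact hh (by rw [this, map_zero])
  refine ⟨coeffMap (algebraMap A K) g1 / coeffMap (algebraMap A K) h,
    coeffMap r g1 / coeffMap r h, ?_, g1, h, hh, div_mul_cancel₀ _ hh0,
    (div_mul_cancel₀ _ hh).symm⟩
  rw [map_mul] at e
  rw [← mul_div_assoc, ← e, mul_div_cancel_right₀ _ hh0]

end formal

variable {M ℓ : ℕ} [NeZero M] [NeZero ℓ]
variable {A K k : Type} [CommRing A] [IsDomain A] [IsDiscreteValuationRing A] [Field K]
  [Algebra A K] [IsFractionRing A K] [Field k] [Finite k] {r : A →+* k} {π : A}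
variable {F : Type} [Field F] [Algebra A F] {Φ : F →+* LaurentSeries K} {w : F →+* F}

/-- **Residue degree one, abstract form.** -/
theorem mem_full_of_redK (S : Setup M ℓ r π Φ w) {t : F} (Q : QL M r π Φ w t) (f : F)
    (a : LaurentSeries k) (h : RedK r (Φ f) a) : a ∈ modularFunctionFieldFullC k M := by
  obtain ⟨ε, hε₁, hε₂, -⟩ := S.exists_eps
  obtain ⟨n, a₂, hn⟩ := exists_pow_mul_redK (r := r) S.hπ S.hr
    (exists_frac_of_mem_full (A := A) (M * ℓ) ((S.hΦF _).2 ⟨w f, rfl⟩))
  obtain ⟨y', a', hy', hr'⟩ := exists_redK_of_redK_zero S.hπ S.hr hε₂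
  have h1 : RedK r (Φ (ε ^ n * f)) a := by
    have := (hε₁.pow n).mul h
    rwa [one_pow, one_mul, ← map_pow, ← map_mul] at this
  have h2 : RedK r (Φ (w (ε ^ n * f))) (a' ^ n * a₂) := by
    have := (hr'.pow n).mul hn
    refine this.congr ?_ rfl
    rw [map_mul, map_pow, map_mul, map_pow, hy', mul_pow]
    ring
  exact Q.mem _ _ _ h1 h2

end Fermat.Agent.S44.ResDeg
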