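import Fermat.Agent.S44.ResDeg.KLevel

/-!
# S44 / ResDeg / Tower : residue degree one of `v_∞` on `F_K(M ℓ) ⊆ K((q))`, over a DVR `(A, K, k)`
(instantiation of `mem_full_of_redK` with intermediate fields of `K((q))`, as in `SS/GM2/Tower.lean`).
-/

set_option autoImplicit false
set_option linter.unusedSectionVars false
set_option linter.style.haveILetI false

open Polynomial ModularCurve
open scoped IntermediateField

namespace Fermat.Agent.S44.ResDeg

open Fermat.Agent.SS.GM2
open Fermat.Agent.S28 (V J evAt)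
open Fermat.Agent.Crux.GM (castS)
open Fermat.Agent.S24 (XN Kb)

set_option maxHeartbeats 1000000 in
set_option synthInstance.maxHeartbeats 400000 in
/-- **Residue degree one over a DVR.** -/
theorem mem_full_of_redK_tower (M ℓ : ℕ) [NeZero M] [NeZero ℓ] (hℓ : ℓ.Prime) (hℓM : ¬ ℓ ∣ M)
    {A K k : Type} [CommRing A] [IsDomain A] [IsDiscreteValuationRing A] [Field K] [CharZero K]
    [Algebra A K] [IsFractionRing A K] [Field k] [Finite k]
    (r : A →+* k) (hr : Function.Surjective r) (hrℓ : r ℓ = 0)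
    (w : modularFunctionFieldFullC K (M * ℓ) →ₐ[K] modularFunctionFieldFullC K (M * ℓ))
    (hw : IsALK K M ℓ w) (z : LaurentSeries K) (hz : z ∈ modularFunctionFieldFullC K (M * ℓ))
    (a : LaurentSeries k) (h : RedK r z a) : a ∈ modularFunctionFieldFullC k M := by
  classical
  obtain ⟨π, hπ⟩ := IsDiscreteValuationRing.exists_irreducible A
  have hle1 := adjoin_Y_le K M ℓ
  letI iAF : Algebra A (modularFunctionFieldFullC K (M * ℓ)) :=
    ((algebraMap K (modularFunctionFieldFullC K (M * ℓ))).comp (algebraMap A K)).toAlgebra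
  letI iAE1 : Algebra A K⟮castS K (Jh (M * ℓ))⟯ :=
    ((algebraMap K K⟮castS K (Jh (M * ℓ))⟯).comp (algebraMap A K)).toAlgebra
  letI iE1F : Algebra K⟮castS K (Jh (M * ℓ))⟯ (modularFunctionFieldFullC K (M * ℓ)) :=
    (IntermediateField.inclusion hle1).toRingHom.toAlgebra
  haveI t2 : IsScalarTower A K⟮castS K (Jh (M * ℓ))⟯ (modularFunctionFieldFullC K (M * ℓ)) :=
    IsScalarTower.of_algebraMap_eq fun _ => rfl
  have S : Setup M ℓ r π (algebraMap (modularFunctionFieldFullC K (M * ℓ)) (LaurentSeries K))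
      (w : modularFunctionFieldFullC K (M * ℓ) →+* modularFunctionFieldFullC K (M * ℓ)) :=
    { hℓ := hℓ
      hℓM := hℓM
      hr := hr
      hrℓ := hrℓ
      hπ := hπ
      hΦA := fun a => by
        change algebraMap K (LaurentSeries K) (algebraMap A K a) = _
        rw [algebraMap_laurentSeries_eq_single, HahnSeries.C_apply]
      hΦF := fun z => ⟨fun hz => ⟨⟨z, hz⟩, rfl⟩, fun ⟨f, hf⟩ => hf ▸ f.2⟩
      hwA := fun a => w.commutes (algebraMap A K a)
      hwα := fun f hf => hw.alpha f hf
      hww := fun f => hw.invol f }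
  have Q := S.ql_Y (E₁ := K⟮castS K (Jh (M * ℓ))⟯)
    (IntermediateField.AdjoinSimple.gen K (castS K (Jh (M * ℓ)))) rfl
    (transcendental_iff.2 fun P hP => Fermat.Agent.Crux.GM.Main.eq_zero_of_eval₂_gen (A := A) _
      (transcendental_castS_Jh K M ℓ) _ (fun _ => rfl) P hP)
    (fun c => Fermat.Agent.Crux.GM.Main.exists_frac_gen (A := A) _ _ (fun _ => rfl) c)
    (by rw [finrank_inclusion _ _ hle1]; exact relfinrank_Y K M ℓ)
  exact mem_full_of_redK S Q ⟨z, hz⟩ a h

end Fermat.Agent.S44.ResDeg
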